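import Fermat.Agent.S55.Local.H64.InfResMul

/-!
# Inflation–restriction in degree 2 for Galois extensions, cocycle form (S55, layer L; helper64)

Tower of fields `K ⊆ E ⊆ N` (types with algebra instances), `N / K` finite Galois, `E / K` normal.
`G = Gal(N/K)`, `Q = Gal(E/K)`, `S = Gal(N/E)`.  With Hilbert 90 (Mathlib) for `N / E`:

* `inflCochain K E N c'` : inflation of a cochain of `Gal(E/K)` (values in `Eˣ`) to `Gal(N/K)`;
* `resCochain K E N c` : restriction of a cochain of `Gal(N/K)` to `Gal(N/E)`;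
* `isMulCoboundary₂_of_inflCochain` : inflation is injective on `H²`;
* `exists_inflCochain_of_resCochain` : exactness of `H²(E/K) → H²(N/K) → H²(N/E)`.

All statements use Mathlib's `IsMulCocycle₂` / `IsMulCoboundary₂` for the natural actions of the
Galois groups on the unit groups (`AlgEquiv.smul_units_def`).
-/

set_option autoImplicit false

namespace Fermat.Agent.S55.Local.H64

open groupCohomology

section Gal

variable (K E N : Type) [Field K] [Field E] [Field N]
  [Algebra K E] [Algebra K N] [Algebra E N] [IsScalarTower K E N]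

/-- The inclusion `Eˣ → Nˣ`. -/
def unitsInc : Eˣ →* Nˣ := Units.map (algebraMap E N).toMonoidHom

@[simp] lemma unitsInc_coe (y : Eˣ) : ((unitsInc E N y : Nˣ) : N) = algebraMap E N y := rfl

lemma unitsInc_injective : Function.Injective (unitsInc E N) := by
  intro a b h
  apply Units.ext
  apply (algebraMap E N).injective
  have := congrArg (fun u : Nˣ => (u : N)) h
  simpa using this

/-- Restriction of a 2-cochain of `Gal(N/K)` to `Gal(N/E)`. -/
def resCochain (c : (N ≃ₐ[K] N) × (N ≃ₐ[K] N) → Nˣ) : (N ≃ₐ[E] N) × (N ≃ₐ[E] N) → Nˣ :=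
  fun p => c (p.1.restrictScalars K, p.2.restrictScalars K)

variable [Normal K E]

/-- Inflation of a 2-cochain of `Gal(E/K)` to `Gal(N/K)`. -/
noncomputable def inflCochain (c' : (E ≃ₐ[K] E) × (E ≃ₐ[K] E) → Eˣ) :
    (N ≃ₐ[K] N) × (N ≃ₐ[K] N) → Nˣ :=
  fun p => unitsInc E N
    (c' (AlgEquiv.restrictNormalHom E p.1, AlgEquiv.restrictNormalHom E p.2))

lemma inflCochain_apply (c' : (E ≃ₐ[K] E) × (E ≃ₐ[K] E) → Eˣ) (g h : N ≃ₐ[K] N) :
    inflCochain K E N c' (g, h) =
      unitsInc E N (c' (AlgEquiv.restrictNormalHom E g, AlgEquiv.restrictNormalHom E h)) := rfl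

lemma unitsInc_smul (g : N ≃ₐ[K] N) (x : Eˣ) :
    unitsInc E N (AlgEquiv.restrictNormalHom E g • x) = g • unitsInc E N x := by
  apply Units.ext
  simp only [unitsInc_coe, AlgEquiv.smul_units_def, Units.coe_map, MonoidHom.coe_coe]
  exact AlgEquiv.restrictNormal_commutes g E (x : E)

/-- An element of `Gal(N/E)`, viewed in `Gal(N/K)`, lies in the kernel of restriction to `E`. -/
lemma restrictScalars_mem_ker (σ : N ≃ₐ[E] N) :
    σ.restrictScalars K ∈ (AlgEquiv.restrictNormalHom (F := K) (K₁ := N) E).ker := by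
  rw [MonoidHom.mem_ker]
  ext x
  apply (algebraMap E N).injective
  change algebraMap E N ((σ.restrictScalars K).restrictNormal E x) = algebraMap E N x
  rw [AlgEquiv.restrictNormal_commutes]
  simp

/-- An element of the kernel of restriction to `E` is `E`-linear. -/
def kerToGal (s : (AlgEquiv.restrictNormalHom (F := K) (K₁ := N) E).ker) : N ≃ₐ[E] N :=
  { (s : N ≃ₐ[K] N).toRingEquiv with
    commutes' := by
      intro x
      have h := s.2
      rw [MonoidHom.mem_ker] at h
      have h' : (s : N ≃ₐ[K] N).restrictNormal E = 1 := h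
      have := AlgEquiv.restrictNormal_commutes (s : N ≃ₐ[K] N) E x
      rw [h'] at this
      simpa using this.symm }

lemma kerToGal_apply (s : (AlgEquiv.restrictNormalHom (F := K) (K₁ := N) E).ker) (x : N) :
    kerToGal K E N s x = (s : N ≃ₐ[K] N) x := rfl

lemma kerToGal_restrictScalars (s : (AlgEquiv.restrictNormalHom (F := K) (K₁ := N) E).ker) :
    (kerToGal K E N s).restrictScalars K = (s : N ≃ₐ[K] N) := by
  ext x; rfl

lemma kerToGal_mul (s t : (AlgEquiv.restrictNormalHom (F := K) (K₁ := N) E).ker) :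
    kerToGal K E N (s * t) = kerToGal K E N s * kerToGal K E N t := by
  ext x; rfl

lemma kerToGal_smul (s : (AlgEquiv.restrictNormalHom (F := K) (K₁ := N) E).ker) (m : Nˣ) :
    kerToGal K E N s • m = (s : N ≃ₐ[K] N) • m := by
  apply Units.ext; rfl

/-- The inflation of a 2-cocycle is a 2-cocycle. -/
theorem isMulCocycle₂_inflCochain {c' : (E ≃ₐ[K] E) × (E ≃ₐ[K] E) → Eˣ}
    (hc' : IsMulCocycle₂ c') : IsMulCocycle₂ (inflCochain K E N c') := by
  intro g h j
  simp only [inflCochain_apply, map_mul]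
  rw [← map_mul, hc', map_mul, unitsInc_smul]

/-- The inflation of a 2-coboundary is a 2-coboundary. -/
theorem isMulCoboundary₂_inflCochain {c' : (E ≃ₐ[K] E) × (E ≃ₐ[K] E) → Eˣ}
    (hc' : IsMulCoboundary₂ c') : IsMulCoboundary₂ (inflCochain K E N c') := by
  obtain ⟨x, hx⟩ := hc'
  refine ⟨fun g => unitsInc E N (x (AlgEquiv.restrictNormalHom E g)), fun g h => ?_⟩
  show g • unitsInc E N (x (AlgEquiv.restrictNormalHom E h)) /
      unitsInc E N (x (AlgEquiv.restrictNormalHom E (g * h))) *
      unitsInc E N (x (AlgEquiv.restrictNormalHom E g)) = _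
  rw [inflCochain_apply, ← hx, map_mul, map_mul, map_div, unitsInc_smul]

omit [Normal K E] in
/-- The restriction of a 2-cocycle is a 2-cocycle. -/
theorem isMulCocycle₂_resCochain {c : (N ≃ₐ[K] N) × (N ≃ₐ[K] N) → Nˣ}
    (hc : IsMulCocycle₂ c) : IsMulCocycle₂ (resCochain K E N c) := by
  intro g h j
  exact hc (g.restrictScalars K) (h.restrictScalars K) (j.restrictScalars K)

omit [Normal K E] in
/-- The restriction of a 2-coboundary is a 2-coboundary. -/
theorem isMulCoboundary₂_resCochain {c : (N ≃ₐ[K] N) × (N ≃ₐ[K] N) → Nˣ}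
    (hc : IsMulCoboundary₂ c) : IsMulCoboundary₂ (resCochain K E N c) := by
  obtain ⟨x, hx⟩ := hc
  exact ⟨fun g => x (g.restrictScalars K), fun g h =>
    hx (g.restrictScalars K) (h.restrictScalars K)⟩

/-- The restriction of an inflated 2-cocycle is a 2-coboundary. -/
theorem isMulCoboundary₂_resCochain_inflCochain (c' : (E ≃ₐ[K] E) × (E ≃ₐ[K] E) → Eˣ) :
    IsMulCoboundary₂ (resCochain K E N (inflCochain K E N c')) := by
  refine ⟨fun _ => unitsInc E N (c' (1, 1)), fun g h => ?_⟩
  have hg : AlgEquiv.restrictNormalHom E (g.restrictScalars K) = 1 :=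
    MonoidHom.mem_ker.1 (restrictScalars_mem_ker K E N g)
  have hh : AlgEquiv.restrictNormalHom E (h.restrictScalars K) = 1 :=
    MonoidHom.mem_ker.1 (restrictScalars_mem_ker K E N h)
  have hfix : g • unitsInc E N (c' (1, 1)) = unitsInc E N (c' (1, 1)) := by
    have := unitsInc_smul K E N (g.restrictScalars K) (c' (1, 1))
    rw [hg, one_smul] at this
    conv_rhs => rw [this]
    apply Units.ext; rfl
  simp only [resCochain, inflCochain_apply, hg, hh, hfix]
  simp

variable [FiniteDimensional K N] [IsGalois K N]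

/-- The inflation data for the tower `K ⊆ E ⊆ N`. -/
theorem inflData :
    InflData (AlgEquiv.restrictNormalHom (F := K) (K₁ := N) E) (unitsInc E N) where
  surj := AlgEquiv.restrictNormalHom_surjective (F := K) (K₁ := E) N
  inj := unitsInc_injective E N
  equiv := unitsInc_smul K E N
  inv := by
    intro m hm
    have : FiniteDimensional E N := FiniteDimensional.right K E N
    have : IsGalois E N := IsGalois.tower_top_of_isGalois K E N
    have hfix : ∀ σ : N ≃ₐ[E] N, σ (m : N) = m := by
      intro σ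
      have := hm _ (restrictScalars_mem_ker K E N σ)
      have h2 := congrArg (fun u : Nˣ => (u : N)) this
      simpa [AlgEquiv.smul_units_def] using h2
    obtain ⟨e, he⟩ := (IsGalois.mem_range_algebraMap_iff_fixed (F := E) (E := N) (m : N)).2 hfix
    have hne : e ≠ 0 := by
      rintro rfl
      rw [map_zero] at he
      exact m.ne_zero he.symm
    refine ⟨Units.mk0 e hne, ?_⟩
    apply Units.ext
    simpa using he
  h1 := by
    intro w hw
    have : FiniteDimensional E N := FiniteDimensional.right K E N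
    have hcoc : IsMulCocycle₁ (fun σ : N ≃ₐ[E] N =>
        w ⟨σ.restrictScalars K, restrictScalars_mem_ker K E N σ⟩) := by
      intro σ τ
      have := hw ⟨σ.restrictScalars K, restrictScalars_mem_ker K E N σ⟩
        ⟨τ.restrictScalars K, restrictScalars_mem_ker K E N τ⟩
      have e1 : (⟨(σ * τ).restrictScalars K, restrictScalars_mem_ker K E N (σ * τ)⟩ :
          (AlgEquiv.restrictNormalHom (F := K) (K₁ := N) E).ker) =
          ⟨σ.restrictScalars K, restrictScalars_mem_ker K E N σ⟩ *
            ⟨τ.restrictScalars K, restrictScalars_mem_ker K E N τ⟩ := by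
        apply Subtype.ext; ext x; rfl
      show w ⟨(σ * τ).restrictScalars K, restrictScalars_mem_ker K E N (σ * τ)⟩ =
        σ • w ⟨τ.restrictScalars K, restrictScalars_mem_ker K E N τ⟩ *
          w ⟨σ.restrictScalars K, restrictScalars_mem_ker K E N σ⟩
      rw [e1, this]
      congr 1
    obtain ⟨β, hβ⟩ := isMulCoboundary₁_of_isMulCocycle₁_of_aut_to_units _ hcoc
    refine ⟨β, fun s => ?_⟩
    have := hβ (kerToGal K E N s)
    rw [kerToGal_smul] at this
    rw [this]
    show w s = w ⟨(kerToGal K E N s).restrictScalars K, _⟩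
    congr 1

/-- **Inflation `H²(Gal(E/K), Eˣ) → H²(Gal(N/K), Nˣ)` is injective** (cocycle form). -/
theorem isMulCoboundary₂_of_inflCochain {c' : (E ≃ₐ[K] E) × (E ≃ₐ[K] E) → Eˣ}
    (h : IsMulCoboundary₂ (inflCochain K E N c')) : IsMulCoboundary₂ c' :=
  isMulCoboundary₂_of_inflation (inflData K E N) h

/-- **Exactness of `H²(Gal(E/K), Eˣ) → H²(Gal(N/K), Nˣ) → H²(Gal(N/E), Nˣ)`** (cocycle form). -/
theorem exists_inflCochain_of_resCochain {c : (N ≃ₐ[K] N) × (N ≃ₐ[K] N) → Nˣ}
    (hc : IsMulCocycle₂ c) (h : IsMulCoboundary₂ (resCochain K E N c)) :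
    ∃ c' : (E ≃ₐ[K] E) × (E ≃ₐ[K] E) → Eˣ, IsMulCocycle₂ c' ∧
      IsMulCoboundary₂ (fun p => c p / inflCochain K E N c' p) := by
  obtain ⟨b, hb⟩ := h
  refine exists_inflation_of_restriction (inflData K E N) hc
    ⟨fun s => b (kerToGal K E N s), fun s t => ?_⟩
  have := hb (kerToGal K E N s) (kerToGal K E N t)
  simp only [resCochain, kerToGal_restrictScalars] at this
  show c ((s : N ≃ₐ[K] N), (t : N ≃ₐ[K] N)) =
    (s : N ≃ₐ[K] N) • b (kerToGal K E N t) / b (kerToGal K E N (s * t)) * b (kerToGal K E N s)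
  rw [← this, kerToGal_smul, kerToGal_mul]

end Gal

end Fermat.Agent.S55.Local.H64
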