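import Mathlib
import Fermat.Agent.S55.H954.H2InfResCore

/-!
# Inflation–restriction in degree 2, multiplicative cocycle form (S55, layer L; helper64)

`G → Q` a surjective group homomorphism with kernel `S`, `M` a multiplicative `G`-module, `MQ` a
multiplicative `Q`-module, `ι : MQ → M` an equivariant embedding onto the `S`-invariants of `M`,
and `H¹(S, M) = 0` (cocycle form).  Then

* `isMulCoboundary₂_of_inflation` : inflation is injective on `H²`;
* `exists_inflation_of_restriction` : a 2-cocycle of `G` whose restriction to `S` is a coboundary is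
  cohomologous to an inflated 2-cocycle.

Everything is stated with Mathlib's `IsMulCocycle₂` / `IsMulCoboundary₂`.  The cochain-level core is
helper954's `Fermat.Agent.S55.H954` (`exists_inflated_of_res_coboundary`,
`exists_invariant_cochain_of_inf_coboundary`).
-/

set_option autoImplicit false

namespace Fermat.Agent.S55.Local.H64

open groupCohomology Fermat.Agent.S55.H954

section Abstract

variable {G M : Type} [Group G] [CommGroup M] [MulDistribMulAction G M]

/-- The representation of `G` on `Additive M`. -/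
noncomputable abbrev addRep (G M : Type) [Group G] [CommGroup M] [MulDistribMulAction G M] :
    Representation ℤ G (Additive M) :=
  Representation.ofMulDistribMulAction G M

lemma addRep_apply (g : G) (m : Additive M) :
    addRep G M g m = Additive.ofMul (g • Additive.toMul m) := rfl

/-- additive version of a multiplicative cochain -/
def toAdd₂ (c : G × G → M) : G × G → Additive M := fun p => Additive.ofMul (c p)

/-- additive version of a multiplicative 1-cochain -/
def toAdd₁ (b : G → M) : G → Additive M := fun g => Additive.ofMul (b g)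

lemma isTwoCocycle_toAdd₂ {c : G × G → M} (hc : IsMulCocycle₂ c) :
    IsTwoCocycle (addRep G M) (toAdd₂ c) := by
  intro g h j
  exact congrArg Additive.ofMul (hc g h j)

lemma isMulCocycle₂_of_isTwoCocycle {f : G × G → Additive M}
    (hf : IsTwoCocycle (addRep G M) f) : IsMulCocycle₂ (fun p => Additive.toMul (f p)) := by
  intro g h j
  exact congrArg Additive.toMul (hf g h j)

lemma dOne_toAdd₁ (b : G → M) (g h : G) :
    dOne (addRep G M) (toAdd₁ b) (g, h) = Additive.ofMul (g • b h / b (g * h) * b g) := rfl

end Abstract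

section Main

variable {G Q M MQ : Type} [Group G] [Group Q] [CommGroup M] [CommGroup MQ]
  [MulDistribMulAction G M] [MulDistribMulAction Q MQ]

/-- `H¹(ker π, M) = 0` in multiplicative cocycle form gives helper954's `HOneVanishes`. -/
lemma hOneVanishes_of_mul (π : G →* Q)
    (hH1 : ∀ w : π.ker → M, (∀ s t : π.ker, w (s * t) = (s : G) • w t * w s) →
      ∃ m : M, ∀ s : π.ker, w s = (s : G) • m / m) :
    HOneVanishes (addRep G M) π.ker := by
  intro w hw
  obtain ⟨m, hm⟩ := hH1 (fun s => Additive.toMul (w s)) (fun s t => by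
    have := hw s t
    exact congrArg Additive.toMul this)
  exact ⟨Additive.ofMul m, fun s => congrArg Additive.ofMul (hm s)⟩

/-- The data of an inflation situation. -/
structure InflData (π : G →* Q) (ι : MQ →* M) : Prop where
  surj : Function.Surjective π
  inj : Function.Injective ι
  equiv : ∀ (g : G) (x : MQ), ι (π g • x) = g • ι x
  inv : ∀ m : M, (∀ s ∈ π.ker, s • m = m) → ∃ x : MQ, ι x = m
  h1 : ∀ w : π.ker → M, (∀ s t : π.ker, w (s * t) = (s : G) • w t * w s) →
      ∃ m : M, ∀ s : π.ker, w s = (s : G) • m / m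

variable {π : G →* Q} {ι : MQ →* M}

/-- a set-theoretic section of `π` -/
noncomputable def InflData.lift (D : InflData π ι) (q : Q) : G := (D.surj q).choose

lemma InflData.π_lift (D : InflData π ι) (q : Q) : π (D.lift q) = q := (D.surj q).choose_spec

lemma InflData.exists_mul_eq (D : InflData π ι) (g : G) :
    ∃ s ∈ π.ker, g = D.lift (π g) * s := by
  refine ⟨(D.lift (π g))⁻¹ * g, ?_, by group⟩
  rw [MonoidHom.mem_ker, map_mul, map_inv, D.π_lift, inv_mul_cancel]

/-- **Inflation is injective on `H²`** (multiplicative cocycle form). -/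
theorem isMulCoboundary₂_of_inflation (D : InflData π ι) {c' : Q × Q → MQ}
    (h : IsMulCoboundary₂ (fun p : G × G => ι (c' (π p.1, π p.2)))) :
    IsMulCoboundary₂ c' := by
  classical
  obtain ⟨x, hx⟩ := h
  set f' : G × G → Additive M := toAdd₂ (fun p : G × G => ι (c' (π p.1, π p.2))) with hf'
  have hinv2 : ∀ s ∈ π.ker, ∀ g h : G, f' (g, h * s) = f' (g, h) := by
    intro s hs g h
    simp only [hf', toAdd₂, map_mul, MonoidHom.mem_ker.1 hs, mul_one]
  have hinv1 : ∀ s ∈ π.ker, ∀ g h : G, f' (g * s, h) = f' (g, h) := by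
    intro s hs g h
    simp only [hf', toAdd₂, map_mul, MonoidHom.mem_ker.1 hs, mul_one]
  have hval : ∀ s ∈ π.ker, ∀ g h : G, addRep G M s (f' (g, h)) = f' (g, h) := by
    intro s hs g h
    change Additive.ofMul (s • ι (c' (π g, π h))) = Additive.ofMul (ι (c' (π g, π h)))
    rw [← D.equiv, MonoidHom.mem_ker.1 hs, one_smul]
  have hc : f' = dOne (addRep G M) (toAdd₁ x) := by
    funext ⟨g, h⟩
    rw [dOne_toAdd₁, hx g h]
    rfl
  obtain ⟨c₁, hd, hright, hfix⟩ :=
    exists_invariant_cochain_of_inf_coboundary (addRep G M) π.ker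
      (hOneVanishes_of_mul π D.h1) hinv2 hinv1 hval (toAdd₁ x) hc
  -- descend `c₁` to `Q`
  have hex : ∀ g : G, ∃ y : MQ, ι y = Additive.toMul (c₁ g) := fun g =>
    D.inv _ (fun s hs => congrArg Additive.toMul (hfix s hs g))
  choose y₀ hy₀ using hex
  set y : Q → MQ := fun q => y₀ (D.lift q) with hy
  have hyπ : ∀ g : G, ι (y (π g)) = Additive.toMul (c₁ g) := by
    intro g
    obtain ⟨s, hs, hg⟩ := D.exists_mul_eq g
    rw [hy, hy₀]
    conv_rhs => rw [hg, hright s hs]
  refine ⟨y, fun q r => D.inj ?_⟩
  obtain ⟨g, rfl⟩ := D.surj q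
  obtain ⟨h, rfl⟩ := D.surj r
  rw [map_mul, map_div, D.equiv, ← map_mul π, hyπ, hyπ, hyπ]
  have := congrFun hd (g, h)
  exact (congrArg Additive.toMul this).symm

/-- **Exactness of inflation–restriction at `H²(G, M)`** (multiplicative cocycle form): a
2-cocycle whose restriction to `ker π` is a coboundary is cohomologous to an inflated
2-cocycle. -/
theorem exists_inflation_of_restriction (D : InflData π ι) {c : G × G → M}
    (hc : IsMulCocycle₂ c)
    (hres : ∃ b : π.ker → M, ∀ s t : π.ker,
      c ((s : G), (t : G)) = (s : G) • b t / b (s * t) * b s) :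
    ∃ c' : Q × Q → MQ, IsMulCocycle₂ c' ∧
      IsMulCoboundary₂ (fun p : G × G => c p / ι (c' (π p.1, π p.2))) := by
  classical
  obtain ⟨b, hb⟩ := hres
  obtain ⟨x, f', hff', hf'coc, hinv2, hinv1, hval⟩ :=
    exists_inflated_of_res_coboundary (addRep G M) π.ker (hOneVanishes_of_mul π D.h1)
      (isTwoCocycle_toAdd₂ hc) (fun s => Additive.ofMul (b s))
      (fun s t => congrArg Additive.ofMul (hb s t))
  have hex : ∀ g h : G, ∃ y : MQ, ι y = Additive.toMul (f' (g, h)) := fun g h =>
    D.inv _ (fun s hs => congrArg Additive.toMul (hval s hs g h))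
  choose y₀ hy₀ using hex
  set c' : Q × Q → MQ := fun p => y₀ (D.lift p.1) (D.lift p.2) with hc'
  have hc'π : ∀ g h : G, ι (c' (π g, π h)) = Additive.toMul (f' (g, h)) := by
    intro g h
    obtain ⟨s, hs, hg⟩ := D.exists_mul_eq g
    obtain ⟨t, ht, hh⟩ := D.exists_mul_eq h
    rw [hc', hy₀]
    conv_rhs => rw [hg, hh, hinv1 s hs, hinv2 t ht]
  refine ⟨c', ?_, ?_⟩
  · intro q r u
    obtain ⟨g, rfl⟩ := D.surj q
    obtain ⟨h, rfl⟩ := D.surj r
    obtain ⟨j, rfl⟩ := D.surj u
    apply D.inj
    rw [map_mul, map_mul, D.equiv, ← map_mul π, ← map_mul π, hc'π, hc'π, hc'π, hc'π]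
    exact congrArg Additive.toMul (hf'coc g h j)
  · refine ⟨fun g => Additive.toMul (x g), fun g h => ?_⟩
    show g • Additive.toMul (x h) / Additive.toMul (x (g * h)) * Additive.toMul (x g) =
      c (g, h) / ι (c' (π g, π h))
    rw [hc'π]
    have := congrFun hff' (g, h)
    have h2 : c (g, h) = Additive.toMul (f' (g, h)) *
        (g • Additive.toMul (x h) / Additive.toMul (x (g * h)) * Additive.toMul (x g)) :=
      congrArg Additive.toMul this
    rw [h2]
    simp

end Main

end Fermat.Agent.S55.Local.H64
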