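import Fermat.Agent.S55.Local.H64.T5Core

/-!
# S55, layer L — GLUE T5 (helper64): `H²(Gal(L/K), Lˣ)` is cyclic of order `[L : K]`

`h2Cyclic_of` : the main theorem of the layer (`H2CyclicStatement`) from the leaves
A4a, A4b, A4d, LF2, LF7, UR1, T2, UR5, UR6' and T4.

The auxiliary tower of `h2Cyclic_core` is: `N / L` the unramified extension of degree `[L : K]`
given by UR5 (Galois over `K`), `I ⊴ Gal(N/K)` the inertia subgroup given by UR6', and
`Ku = N ^ I`.
-/

set_option autoImplicit false
set_option linter.style.haveILetI false

namespace Fermat.Agent.S55.Local.H64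

open groupCohomology Fermat.Agent.S55.Local

section Transfer

variable {A F : Type} [CommRing A] [Field F] [Algebra A F]
variable {K : Type} [Field K] [Algebra F K]
variable {L : Type} [Field L] [Algebra F L] [Algebra K L]
variable {N : Type} [Field N] [Algebra F N] [Algebra K N] [Algebra L N] [IsScalarTower K L N]

set_option linter.unusedSectionVars false in
/-- `N / L` unramified implies `N / E` unramified for `E` the image of `L` in `N`. -/
lemma isUnram_fieldRange (hNL : IsUnram A F N L) :
    letI : Algebra F (IsScalarTower.toAlgHom K L N).fieldRange :=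
      ((algebraMap K (IsScalarTower.toAlgHom K L N).fieldRange).comp (algebraMap F K)).toAlgebra
    IsUnram A F N (IsScalarTower.toAlgHom K L N).fieldRange := by
  intro x
  obtain ⟨y, hy⟩ := hNL x
  have hmem : algebraMap L N (y : L) ∈ (IsScalarTower.toAlgHom K L N).fieldRange :=
    ⟨(y : L), rfl⟩
  have hne : (⟨algebraMap L N (y : L), hmem⟩ : (IsScalarTower.toAlgHom K L N).fieldRange) ≠ 0 := by
    intro h0
    have h1 := congrArg Subtype.val h0
    simp at h1
  refine ⟨Units.mk0 _ hne, ?_⟩
  have e : unitsIncl N (IsScalarTower.toAlgHom K L N).fieldRange (Units.mk0 _ hne) =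
      unitsIncl N L y := by
    apply Units.ext
    rfl
  rw [e]
  exact hy

end Transfer

/-- **T5** (glue): `H²(Gal(L/K), Lˣ)` is cyclic of order `[L : K]`. -/
theorem h2Cyclic_of
    (hA4a : CycCocycleIsCocycleStatement) (hA4b : CycCocycleCoboundaryIffStatement)
    (hA4d : CycCocyclePullbackStatement) (hLF2 : ExistsUnifStatement)
    (hLF7 : RamificationStatement) (hUR1 : UnramCyclicStatement)
    (hT2 : UnramNormRangeStatement) (hUR5 : ExistsUnramExtStatement)
    (hUR6 : InertiaCardStatement) (hT4 : H2CardDvdStatement) : H2CyclicStatement := by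
  intro A F _ _ _ _ _ _ _ _ _ K _ _ _ L _ _ _ _ _ _
  obtain ⟨N, _, _, _, _, _, _, _, _, _, hNL, hdeg⟩ :=
    hUR5 A F K L (Module.finrank K L) Module.finrank_pos
  obtain ⟨I, hIn, hI, hIcard⟩ := hUR6 A F K N
  letI : Algebra F (IntermediateField.fixedField I) :=
    ((algebraMap K (IntermediateField.fixedField I)).comp (algebraMap F K)).toAlgebra
  haveI : IsScalarTower F K (IntermediateField.fixedField I) :=
    IsScalarTower.of_algebraMap_eq (fun _ => rfl)
  haveI : IsGalois K (IntermediateField.fixedField I) :=
    IsGalois.of_fixedField_normal_subgroup I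
  have hKu : IsUnram A F (IntermediateField.fixedField I) K := by
    obtain ⟨-, h2⟩ := hI (IntermediateField.fixedField I)
    exact h2.2 (by rw [IntermediateField.fixingSubgroup_fixedField])
  have hbot : (IsScalarTower.toAlgHom K L N).fieldRange.fixingSubgroup ⊓ I = ⊥ := by
    obtain ⟨h1, -⟩ := hI (IsScalarTower.toAlgHom K L N).fieldRange
    exact h1.1 (isUnram_fieldRange hNL)
  have hinj : ∀ s : N ≃ₐ[L] N,
      (∀ x : IntermediateField.fixedField I,
        s (algebraMap (IntermediateField.fixedField I) N x) =
          algebraMap (IntermediateField.fixedField I) N x) → s = 1 := by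
    intro s hs
    have hg : s.restrictScalars K ∈
        (IsScalarTower.toAlgHom K L N).fieldRange.fixingSubgroup ⊓ I := by
      refine Subgroup.mem_inf.2 ⟨?_, ?_⟩
      · rw [IntermediateField.mem_fixingSubgroup_iff]
        rintro x ⟨y, rfl⟩
        exact s.commutes y
      · have : s.restrictScalars K ∈ (IntermediateField.fixedField I).fixingSubgroup := by
          rw [IntermediateField.mem_fixingSubgroup_iff]
          intro x hx
          exact hs ⟨x, hx⟩
        rwa [IntermediateField.fixingSubgroup_fixedField] at this
    rw [hbot, Subgroup.mem_bot] at hg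
    apply AlgEquiv.restrictScalars_injective K
    exact hg
  have he : Nat.card I * Module.finrank K (IntermediateField.fixedField I) =
      Module.finrank K N := by
    rw [← IntermediateField.finrank_fixedField_eq_card I, mul_comm]
    exact Module.finrank_mul_finrank K (IntermediateField.fixedField I) N
  exact h2Cyclic_core hA4a hA4b hA4d hLF2 hLF7 hUR1 hT2 hT4 A F K L N
    (IntermediateField.fixedField I) hNL hdeg hKu hinj (Nat.card I) he hIcard

end Fermat.Agent.S55.Local.H64
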