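import Fermat.Agent.S55.Local.Spec2
import Fermat.Agent.S55.Local.H64.GalInfRes

/-!
# S55, layer L — auxiliary lemmas for the T5 glue (helper64)

* `nsmul_class_eq_zero_iff` : `k • [c] = 0` in `H²` iff `c ^ k` is a multiplicative coboundary;
* `card_eq_and_isAddCyclic_of_order` : an abelian group of order dividing `n` with an element of
  order (a multiple of) `n` is cyclic of order `n`;
* `cycCocycle_pow`, `map_cycCocycle` : algebra of the standard cyclic cocycle;
* `exists_pow_eq_of_injective` : in a cyclic group `Q` of order `m` with generator `φ`, an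
  injective hom `ρ : S → Q` from a group of order `n` hits `φ ^ (m / n)`, at a generator of `S`;
* `prod_smul_eq_unitsIncl_norm` : `∏_{g ∈ Gal(L/K)} g • y = N_{L/K}(y)` in `Lˣ`.
-/

set_option autoImplicit false

namespace Fermat.Agent.S55.Local.H64

open groupCohomology Fermat.Agent.S55.Local

section Class

variable {G M : Type} [Group G] [CommGroup M] [MulDistribMulAction G M]

lemma isMulCocycle₂_pow {c : G × G → M} (hc : IsMulCocycle₂ c) (k : ℕ) :
    IsMulCocycle₂ (fun p => c p ^ k) := by
  intro g h j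
  simp only
  rw [← mul_pow, hc g h j, mul_pow, smul_pow']

lemma isMulCoboundary₂_pow {c : G × G → M} (hc : IsMulCoboundary₂ c) (k : ℕ) :
    IsMulCoboundary₂ (fun p => c p ^ k) := by
  obtain ⟨x, hx⟩ := hc
  refine ⟨fun g => x g ^ k, fun g h => ?_⟩
  simp only
  rw [← hx g h, mul_pow, div_pow, smul_pow']

lemma isMulCoboundary₂_mul {c c' : G × G → M} (hc : IsMulCoboundary₂ c)
    (hc' : IsMulCoboundary₂ c') : IsMulCoboundary₂ (fun p => c p * c' p) := by
  obtain ⟨x, hx⟩ := hc
  obtain ⟨x', hx'⟩ := hc'
  refine ⟨fun g => x g * x' g, fun g h => ?_⟩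
  simp only
  rw [← hx g h, ← hx' g h, smul_mul']
  simp only [div_eq_mul_inv, mul_inv]
  ac_rfl

/-- The class in `H²` of a multiplicative 2-cocycle. -/
noncomputable def classOf {c : G × G → M} (hc : IsMulCocycle₂ c) :
    H2 (Rep.ofMulDistribMulAction G M) :=
  (H2π (Rep.ofMulDistribMulAction G M)).hom (cocyclesOfIsMulCocycle₂ hc)

lemma nsmul_classOf {c : G × G → M} (hc : IsMulCocycle₂ c) (k : ℕ) :
    k • classOf hc = classOf (isMulCocycle₂_pow hc k) := by
  unfold classOf
  rw [← map_nsmul]
  congr 1

lemma classOf_eq_zero_iff {c : G × G → M} (hc : IsMulCocycle₂ c) :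
    classOf hc = 0 ↔ IsMulCoboundary₂ c := by
  unfold classOf
  rw [H2π_eq_zero_iff]
  constructor
  · intro h
    exact isMulCoboundary₂_of_mem_coboundaries₂ _ h
  · intro h
    exact (coboundariesOfIsMulCoboundary₂ h).2

lemma nsmul_classOf_eq_zero_iff {c : G × G → M} (hc : IsMulCocycle₂ c) (k : ℕ) :
    k • classOf hc = 0 ↔ IsMulCoboundary₂ (fun p => c p ^ k) := by
  rw [nsmul_classOf, classOf_eq_zero_iff]

end Class

section Order

/-- An additive commutative group whose order divides `n > 0` and which contains an element `z`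
with `k • z = 0 → n ∣ k` is cyclic of order `n`. -/
theorem card_eq_and_isAddCyclic_of_order {X : Type} [AddCommGroup X] {n : ℕ} (hn : 0 < n)
    (hcard : Nat.card X ∣ n) (z : X) (hz : ∀ k : ℕ, k • z = 0 → n ∣ k) :
    Nat.card X = n ∧ IsAddCyclic X := by
  have hne : Nat.card X ≠ 0 := by
    rintro h0
    rw [h0, zero_dvd_iff] at hcard
    omega
  have : Finite X := Nat.finite_of_card_ne_zero hne
  have h1 : n ∣ addOrderOf z := hz _ (addOrderOf_nsmul_eq_zero z)
  have h2 : addOrderOf z ∣ Nat.card X := addOrderOf_dvd_natCard z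
  have h3 : Nat.card X = n := Nat.dvd_antisymm hcard (h1.trans h2)
  have h4 : addOrderOf z = Nat.card X := by
    rw [h3]
    exact Nat.dvd_antisymm (h3 ▸ h2) h1
  exact ⟨h3, isAddCyclic_of_addOrderOf_eq_card z h4⟩

end Order

section Cyc

variable {G : Type} [Group G]

lemma cycCocycle_pow {M : Type} [CommGroup M] (σ : G) (x : M) (k : ℕ) (p : G × G) :
    cycCocycle σ x p ^ k = cycCocycle σ (x ^ k) p := by
  unfold cycCocycle
  rw [← pow_mul, ← pow_mul, mul_comm]

lemma map_cycCocycle {M M' : Type} [CommGroup M] [CommGroup M'] (f : M →* M') (σ : G) (x : M)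
    (p : G × G) : f (cycCocycle σ x p) = cycCocycle σ (f x) p := by
  unfold cycCocycle
  rw [map_pow]

end Cyc

section CyclicGroup

/-- In a finite cyclic group `Q` with generator `φ`, an injective homomorphism `ρ : S → Q` hits
`φ ^ (|Q| / |S|)`, and any preimage generates `S`. -/
theorem exists_pow_eq_of_injective {S Q : Type} [Group S] [Group Q] [Finite Q]
    (ρ : S →* Q) (hρ : Function.Injective ρ) (φ : Q) (hφ : ∀ g, g ∈ Subgroup.zpowers φ) :
    ∃ τ : S, (∀ s, s ∈ Subgroup.zpowers τ) ∧ ρ τ = φ ^ (Nat.card Q / Nat.card S) := by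
  classical
  have : Finite S := Finite.of_injective ρ hρ
  have : IsCyclic Q := ⟨φ, hφ⟩
  set m := Nat.card Q with hm
  set n := Nat.card S with hn
  have hnpos : 0 < n := Nat.card_pos
  have hmpos : 0 < m := Nat.card_pos
  have hnm : n ∣ m := by
    have := Subgroup.card_dvd_of_injective ρ hρ
    simpa [hm, hn] using this
  have hordφ : orderOf φ = m := orderOf_eq_card_of_forall_mem_zpowers hφ
  -- the range of `ρ` is the set of elements killed by `n`
  have hrange : ∀ q : Q, q ^ n = 1 → q ∈ ρ.range := by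
    let _ := Fintype.ofFinite Q
    let _ := Fintype.ofFinite S
    have hle : (Finset.univ.filter fun a : Q => a ^ n = 1).card ≤ n :=
      IsCyclic.card_pow_eq_one_le hnpos
    have hsub : (Finset.univ.image ρ) ⊆ (Finset.univ.filter fun a : Q => a ^ n = 1) := by
      intro q hq
      obtain ⟨s, -, rfl⟩ := Finset.mem_image.1 hq
      simp only [Finset.mem_filter, Finset.mem_univ, true_and]
      rw [← map_pow, hn, pow_card_eq_one', map_one]
    have hcard : (Finset.univ.image ρ).card = n := by
      rw [Finset.card_image_of_injective _ hρ, Finset.card_univ, hn, Nat.card_eq_fintype_card]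
    have heq : Finset.univ.image ρ = Finset.univ.filter fun a : Q => a ^ n = 1 :=
      Finset.eq_of_subset_of_card_le hsub (by rw [hcard]; exact hle)
    intro q hq
    have : q ∈ Finset.univ.filter fun a : Q => a ^ n = 1 := by simp [hq]
    rw [← heq] at this
    obtain ⟨s, -, rfl⟩ := Finset.mem_image.1 this
    exact ⟨s, rfl⟩
  have hkill : (φ ^ (m / n)) ^ n = 1 := by
    rw [← pow_mul, Nat.div_mul_cancel hnm, ← hordφ, pow_orderOf_eq_one]
  obtain ⟨τ, hτ⟩ := hrange _ hkill
  refine ⟨τ, ?_, hτ⟩
  -- `τ` has order `n`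
  have hordτ : orderOf τ = n := by
    rw [← orderOf_injective ρ hρ τ, hτ, orderOf_pow' φ (by
      intro h0
      have := Nat.div_mul_cancel hnm
      rw [h0, zero_mul] at this
      omega), hordφ, Nat.gcd_eq_right (Nat.div_dvd_of_dvd hnm), Nat.div_div_self hnm hmpos.ne']
  intro s
  have := (isCyclic_of_orderOf_eq_card τ (by rw [hordτ])).exists_generator
  -- direct: zpowers τ = ⊤ by cardinality
  have htop : Subgroup.zpowers τ = ⊤ := by
    apply Subgroup.eq_top_of_card_eq
    rw [Nat.card_zpowers, hordτ]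
  rw [htop]
  exact Subgroup.mem_top s

end CyclicGroup

section Norm

variable (K L : Type) [Field K] [Field L] [Algebra K L] [FiniteDimensional K L] [IsGalois K L]

/-- The product of the Galois conjugates of a unit is its norm. -/
lemma prod_smul_eq_unitsIncl_norm (y : Lˣ) :
    ∏ g : L ≃ₐ[K] L, g • y = unitsIncl L K (normUnits L K y) := by
  apply Units.ext
  rw [unitsIncl_coe, normUnits_coe, Algebra.norm_eq_prod_automorphisms]
  rw [Units.coe_prod]
  rfl

end Norm

end Fermat.Agent.S55.Local.H64
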