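import Fermat.Agent.S55.Local.H530.GlueT2
import Fermat.Agent.S55.Local.H64.T5Aux

/-!
# S55, layer L — T5 glue, part 1 (helper64): uniformizers and ramification indices in towers

Purely algebraic consequences of the definitions `IsInt`, `intUnits`, `IsUnif`, `IsUnram`:

* `unitsIncl_mem_intUnits_iff` : `U_L ∩ Kˣ = U_K` (LF3, definitionally cheap form);
* `isUnif_unitsIncl_of_isUnram` : a uniformizer of `L` is a uniformizer of `N` if `N / L` is
  unramified;
* `ramIdx_eq_of_unitsIncl` : if `N / L` is unramified then `e(L/K) = e(N/K)`.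
-/

set_option autoImplicit false

namespace Fermat.Agent.S55.Local.H64

open Fermat.Agent.S55.Local

section Unif

variable {A F : Type} [CommRing A] [Field F] [Algebra A F]
variable {K : Type} [Field K] [Algebra F K]
variable {L : Type} [Field L] [Algebra F L] [Algebra K L] [IsScalarTower F K L]

/-- (LF3) `U_L ∩ Kˣ = U_K`. -/
lemma unitsIncl_mem_intUnits_iff (y : Kˣ) :
    unitsIncl L K y ∈ intUnits A F L ↔ y ∈ intUnits A F K := by
  have h1 : ((unitsIncl L K y : Lˣ) : L) = algebraMap K L (y : K) := rfl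
  have h2 : (((unitsIncl L K y)⁻¹ : Lˣ) : L) = algebraMap K L ((y⁻¹ : Kˣ) : K) := by
    rw [← map_inv]; rfl
  rw [mem_intUnits, mem_intUnits, h1, h2, H530.isInt_algebraMap_iff, H530.isInt_algebraMap_iff]

lemma unitsIncl_injective : Function.Injective (unitsIncl L K) := by
  intro a b h
  apply Units.ext
  apply (algebraMap K L).injective
  have := congrArg (fun u : Lˣ => (u : L)) h
  simpa using this

variable {N : Type} [Field N] [Algebra F N] [Algebra K N] [Algebra L N] [IsScalarTower F L N]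
  [IsScalarTower K L N]

omit [Algebra F K] [IsScalarTower F K L] [Algebra F L] [Algebra F N] [IsScalarTower F L N] in
lemma unitsIncl_unitsIncl (y : Kˣ) : unitsIncl N L (unitsIncl L K y) = unitsIncl N K y := by
  apply Units.ext
  simp only [unitsIncl_coe]
  exact (IsScalarTower.algebraMap_apply K L N (y : K)).symm

omit [Algebra F K] [IsScalarTower F K L] [Algebra K N] [IsScalarTower K L N] [Algebra K L] in
/-- A uniformizer of `L` is a uniformizer of an unramified extension `N`. -/
lemma isUnif_unitsIncl_of_isUnram (hur : IsUnram A F N L) {ϖL : Lˣ} (h : IsUnif A F L ϖL) :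
    IsUnif A F N (unitsIncl N L ϖL) := by
  refine ⟨H530.isInt_algebraMap h.1, ?_, ?_⟩
  · intro hmem
    exact h.2.1 ((unitsIncl_mem_intUnits_iff (A := A) (F := F) (K := L) (L := N) ϖL).1 hmem)
  · intro x
    obtain ⟨y, hy⟩ := hur x
    obtain ⟨k, hk⟩ := h.2.2 y
    refine ⟨k, ?_⟩
    have hk' : unitsIncl N L (y * ϖL ^ (-k)) ∈ intUnits A F N :=
      (unitsIncl_mem_intUnits_iff (A := A) (F := F) (K := L) (L := N) _).2 hk
    have e : x * unitsIncl N L ϖL ^ (-k) =
        (x * (unitsIncl N L y)⁻¹) * unitsIncl N L (y * ϖL ^ (-k)) := by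
      rw [map_mul, map_zpow]
      generalize unitsIncl N L y = Y
      generalize unitsIncl N L ϖL ^ (-k) = P
      group
    rw [e]
    exact (intUnits A F N).mul_mem hy hk'

omit [Algebra F K] [IsScalarTower F K L] in
/-- If a uniformizer `ϖL` of `L` is still a uniformizer of `N` (i.e. `N / L` is unramified) then
`e(L/K) = e(N/K)`: the two exponents of `ϖL` in `ϖK` agree. -/
lemma ramIdx_eq_of_unitsIncl {ϖK : Kˣ} {ϖL : Lˣ}
    (hL : IsUnif A F L ϖL) {eL e : ℕ}
    (heL : unitsIncl L K ϖK * ϖL ^ (-(eL : ℤ)) ∈ intUnits A F L)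
    (he : unitsIncl N K ϖK * (unitsIncl N L ϖL) ^ (-(e : ℤ)) ∈ intUnits A F N) :
    eL = e := by
  have he' : unitsIncl N L (unitsIncl L K ϖK * ϖL ^ (-(e : ℤ))) ∈ intUnits A F N := by
    rw [map_mul, map_zpow, unitsIncl_unitsIncl]
    exact he
  have he'' := (unitsIncl_mem_intUnits_iff (A := A) (F := F) (K := L) (L := N) _).1 he'
  have key : ϖL ^ ((eL : ℤ) - e) ∈ intUnits A F L := by
    have e1 : ϖL ^ ((eL : ℤ) - e) =
        (unitsIncl L K ϖK * ϖL ^ (-(eL : ℤ)))⁻¹ * (unitsIncl L K ϖK * ϖL ^ (-(e : ℤ))) := by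
      rw [sub_eq_add_neg, zpow_add, zpow_neg, zpow_neg]
      generalize unitsIncl L K ϖK = Y
      group
    rw [e1]
    exact (intUnits A F L).mul_mem ((intUnits A F L).inv_mem heL) he''
  have := H530.eq_zero_of_unif_zpow_mem hL key
  omega

end Unif

end Fermat.Agent.S55.Local.H64
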