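import Fermat.Agent.S55.Local.Spec2
import Fermat.Agent.S55.Local.H64.GalInfRes
import Fermat.Agent.S55.Local.H64.T5Unif

/-!
# S55, layer L — T5 glue, part 2 (helper64): the core argument

`h2Cyclic_core` : the lower bound for `H²(Gal(L/K), Lˣ)` from an auxiliary tower
`K ⊆ L ⊆ N`, `K ⊆ Ku ⊆ N` with `N / L` unramified of degree `n = [L : K]`, `Ku / K` unramified and
Galois, `Gal(N/L) → Gal(Ku/K)` injective and `e(N/K) · [Ku : K] = [N : K]`.

The class of order `n` is obtained as follows.  `Gal(Ku/K)` is cyclic (UR1) with generator `φ`;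
let `m = [Ku : K]`, `t = m / n`, `x = ϖK ^ t`.  The inflation to `Gal(N/K)` of the standard cyclic
cocycle `cycCocycle φ x` restricts on `Gal(N/L)` to the standard cyclic cocycle of `x` for a
suitable generator `τ` (A4d), which is a coboundary because `x` is a norm from `N` (T2 for `N/L`,
`v_L(x) = e t = n`).  By inflation–restriction it is the inflation of a class `z` of
`Gal(L/K)`; if `k • z = 0` then `x ^ k` is a norm from `Ku` (inflation is injective, A4b), so
`m ∣ t k` (T2 for `Ku/K`), i.e. `n ∣ k`.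
-/

set_option autoImplicit false

namespace Fermat.Agent.S55.Local.H64

open groupCohomology Fermat.Agent.S55.Local

section Rho

variable (K L N Ku : Type) [Field K] [Field L] [Field N] [Field Ku]
  [Algebra K L] [Algebra K N] [Algebra L N] [IsScalarTower K L N]
  [Algebra K Ku] [Algebra Ku N] [IsScalarTower K Ku N] [Normal K Ku]

/-- `Gal(N/L) → Gal(N/K) → Gal(Ku/K)`. -/
noncomputable def rho : (N ≃ₐ[L] N) →* (Ku ≃ₐ[K] Ku) :=
  (AlgEquiv.restrictNormalHom Ku).comp (AlgEquiv.restrictScalarsHom K)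

lemma rho_apply (s : N ≃ₐ[L] N) :
    rho K L N Ku s = AlgEquiv.restrictNormalHom Ku (s.restrictScalars K) := rfl

lemma rho_injective
    (h : ∀ s : N ≃ₐ[L] N, (∀ x : Ku, s (algebraMap Ku N x) = algebraMap Ku N x) → s = 1) :
    Function.Injective (rho K L N Ku) := by
  rw [injective_iff_map_eq_one]
  intro s hs
  apply h
  intro x
  have h0 := AlgEquiv.restrictNormal_commutes (s.restrictScalars K) Ku x
  rw [rho_apply] at hs
  have h1 : (s.restrictScalars K).restrictNormal Ku = 1 := hs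
  rw [h1] at h0
  exact h0.symm

/-- The restriction to `Gal(N/L)` of the inflation of a standard cyclic cocycle of `Gal(Ku/K)`
is a standard cyclic cocycle. -/
lemma resCochain_inflCochain_cycCocycle (hA4d : CycCocyclePullbackStatement)
    [FiniteDimensional K N] [FiniteDimensional K Ku]
    (φ : Ku ≃ₐ[K] Ku) (hφ : ∀ g, g ∈ Subgroup.zpowers φ)
    (τ : N ≃ₐ[L] N) (hτ : ∀ s, s ∈ Subgroup.zpowers τ)
    (hinj : Function.Injective (rho K L N Ku))
    (hτφ : rho K L N Ku τ = φ ^ (Nat.card (Ku ≃ₐ[K] Ku) / Nat.card (N ≃ₐ[L] N)))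
    (x : Kˣ) :
    resCochain K L N (inflCochain K Ku N (cycCocycle φ (unitsIncl Ku K x))) =
      cycCocycle τ (unitsIncl N K x) := by
  have : FiniteDimensional L N := FiniteDimensional.right K L N
  funext p
  have h := hA4d (Ku ≃ₐ[K] Ku) (N ≃ₐ[L] N) Kuˣ φ τ (rho K L N Ku) hφ hτ hinj hτφ
    (unitsIncl Ku K x) p
  show unitsInc Ku N (cycCocycle φ (unitsIncl Ku K x) (rho K L N Ku p.1, rho K L N Ku p.2)) = _
  rw [h, map_cycCocycle]
  congr 1
  apply Units.ext
  show algebraMap Ku N (algebraMap K Ku (x : K)) = algebraMap K N (x : K)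
  exact (IsScalarTower.algebraMap_apply K Ku N (x : K)).symm

end Rho

section Core

/-- **T5 core**: the lower bound from an auxiliary tower. -/
theorem h2Cyclic_core
    (hA4a : CycCocycleIsCocycleStatement) (hA4b : CycCocycleCoboundaryIffStatement)
    (hA4d : CycCocyclePullbackStatement) (hLF2 : ExistsUnifStatement)
    (hLF7 : RamificationStatement) (hUR1 : UnramCyclicStatement)
    (hT2 : UnramNormRangeStatement) (hT4 : H2CardDvdStatement)
    (A F : Type) [CommRing A] [IsDomain A] [IsDiscreteValuationRing A]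
    [IsAdicComplete (IsLocalRing.maximalIdeal A) A] [Finite (IsLocalRing.ResidueField A)]
    [Field F] [CharZero F] [Algebra A F] [IsFractionRing A F]
    (K : Type) [Field K] [Algebra F K] [FiniteDimensional F K]
    (L : Type) [Field L] [Algebra F L] [Algebra K L] [IsScalarTower F K L]
    [FiniteDimensional K L] [IsGalois K L]
    (N : Type) [Field N] [Algebra F N] [Algebra K N] [Algebra L N] [IsScalarTower F K N]
    [IsScalarTower F L N] [IsScalarTower K L N] [FiniteDimensional K N] [IsGalois K N]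
    (Ku : Type) [Field Ku] [Algebra F Ku] [Algebra K Ku] [Algebra Ku N] [IsScalarTower F K Ku]
    [IsScalarTower K Ku N] [FiniteDimensional K Ku] [IsGalois K Ku]
    (hNL : IsUnram A F N L) (hdeg : Module.finrank L N = Module.finrank K L)
    (hKu : IsUnram A F Ku K)
    (hinj : ∀ s : N ≃ₐ[L] N, (∀ x : Ku, s (algebraMap Ku N x) = algebraMap Ku N x) → s = 1)
    (e : ℕ) (he : e * Module.finrank K Ku = Module.finrank K N)
    (hcard : ∀ (ϖK : Kˣ) (ϖN : Nˣ), IsUnif A F K ϖK → IsUnif A F N ϖN →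
        unitsIncl N K ϖK * ϖN ^ (-(e : ℤ)) ∈ intUnits A F N) :
    Nat.card (H2 (Rep.ofAlgebraAutOnUnits K L)) = Module.finrank K L ∧
      IsAddCyclic (H2 (Rep.ofAlgebraAutOnUnits K L)) := by
  have : FiniteDimensional F L := FiniteDimensional.trans F K L
  have : FiniteDimensional L N := FiniteDimensional.right K L N
  have : IsGalois L N := IsGalois.tower_top_of_isGalois K L N
  have hnpos : 0 < Module.finrank K L := Module.finrank_pos
  have hmpos : 0 < Module.finrank K Ku := Module.finrank_pos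
  -- `Gal(Ku/K)` is cyclic
  have hQ : IsCyclic (Ku ≃ₐ[K] Ku) := hUR1 A F K Ku hKu
  obtain ⟨φ, hφ⟩ := IsCyclic.exists_generator (α := Ku ≃ₐ[K] Ku)
  have hcardQ : Nat.card (Ku ≃ₐ[K] Ku) = Module.finrank K Ku :=
    IsGalois.card_aut_eq_finrank K Ku
  have hcardS : Nat.card (N ≃ₐ[L] N) = Module.finrank K L := by
    rw [IsGalois.card_aut_eq_finrank L N, hdeg]
  have hρ := rho_injective K L N Ku hinj
  obtain ⟨τ, hτ, hτφ⟩ := exists_pow_eq_of_injective (rho K L N Ku) hρ φ hφ
  have hnm : Module.finrank K L ∣ Module.finrank K Ku := by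
    have := Subgroup.card_dvd_of_injective _ hρ
    rwa [hcardS, hcardQ] at this
  obtain ⟨t, ht⟩ := hnm
  have htpos : 0 < t := by
    rcases Nat.eq_zero_or_pos t with h0 | h0
    · rw [h0, mul_zero] at ht
      omega
    · exact h0
  have hNK : Module.finrank K N = Module.finrank K L * Module.finrank K L := by
    rw [← Module.finrank_mul_finrank K L N, hdeg]
  have het : e * t = Module.finrank K L := by
    have h1 : Module.finrank K L * (e * t) = Module.finrank K L * Module.finrank K L := by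
      rw [← hNK, ← he, ht]
      ring
    exact Nat.eq_of_mul_eq_mul_left hnpos h1
  -- uniformizers
  obtain ⟨ϖK, hϖK⟩ := hLF2 A F K
  obtain ⟨ϖL, hϖL⟩ := hLF2 A F L
  obtain ⟨eL, fL, -, heL, -⟩ := hLF7 A F K L ϖK ϖL hϖK hϖL
  have hϖN : IsUnif A F N (unitsIncl N L ϖL) := isUnif_unitsIncl_of_isUnram hNL hϖL
  have heq : eL = e := ramIdx_eq_of_unitsIncl hϖL heL (hcard ϖK _ hϖK hϖN)
  subst heq
  -- the cocycle on `Gal(Ku/K)`
  have hφx : ∀ y : Kˣ, φ • unitsIncl Ku K y = unitsIncl Ku K y := by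
    intro y
    apply Units.ext
    exact φ.commutes _
  have hcu := hA4a (Ku ≃ₐ[K] Ku) Kuˣ φ hφ (unitsIncl Ku K (ϖK ^ t)) (hφx _)
  have hcG := isMulCocycle₂_inflCochain K Ku N hcu
  -- its restriction to `Gal(N/L)`
  have hres := resCochain_inflCochain_cycCocycle K L N Ku hA4d φ hφ τ hτ hρ hτφ (ϖK ^ t)
  have hτx : τ • unitsIncl N K (ϖK ^ t) = unitsIncl N K (ϖK ^ t) := by
    rw [← unitsIncl_unitsIncl (L := L)]
    apply Units.ext
    exact τ.commutes _
  have hcob : IsMulCoboundary₂ (cycCocycle τ (unitsIncl N K (ϖK ^ t))) := by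
    rw [hA4b (N ≃ₐ[L] N) Nˣ τ hτ _ hτx]
    have hnorm : unitsIncl L K (ϖK ^ t) ∈ (normUnits N L).range := by
      have e1 : unitsIncl L K (ϖK ^ t) =
          (unitsIncl L K ϖK * ϖL ^ (-(eL : ℤ))) ^ t * ϖL ^ (((eL * t : ℕ)) : ℤ) := by
        rw [map_pow, mul_pow, ← zpow_natCast (ϖL ^ (-(eL : ℤ))) t, ← zpow_mul, mul_assoc,
          ← zpow_add]
        have : -(eL : ℤ) * (t : ℤ) + ((eL * t : ℕ) : ℤ) = 0 := by push_cast; ring
        rw [this, zpow_zero, mul_one]
      rw [e1, hT2 A F L N ϖL hNL hϖL _ _ ((intUnits A F L).pow_mem heL t), hdeg, het]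
    obtain ⟨y, hy⟩ := hnorm
    refine ⟨y, ?_⟩
    rw [prod_smul_eq_unitsIncl_norm L N y, hy, unitsIncl_unitsIncl]
  rw [← hres] at hcob
  obtain ⟨c', hc', hdiff⟩ := exists_inflCochain_of_resCochain K L N hcG hcob
  -- the class of `c'` has order divisible by `n`
  have hord : ∀ k : ℕ, k • classOf hc' = 0 → Module.finrank K L ∣ k := by
    intro k hk
    rw [nsmul_classOf_eq_zero_iff] at hk
    have h1 : IsMulCoboundary₂ (inflCochain K L N (fun p => c' p ^ k)) :=
      isMulCoboundary₂_inflCochain K L N hk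
    have h2 := isMulCoboundary₂_pow hdiff k
    have h3 := isMulCoboundary₂_mul h2 h1
    have h4 : (fun p => (inflCochain K Ku N (cycCocycle φ (unitsIncl Ku K (ϖK ^ t))) p /
          inflCochain K L N c' p) ^ k * inflCochain K L N (fun p => c' p ^ k) p) =
        inflCochain K Ku N (cycCocycle φ (unitsIncl Ku K ((ϖK ^ t) ^ k))) := by
      funext p
      rcases p with ⟨g, h⟩
      simp only [inflCochain_apply]
      have e1 : unitsIncl Ku K ((ϖK ^ t) ^ k) = (unitsIncl Ku K (ϖK ^ t)) ^ k := map_pow _ _ _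
      rw [e1, ← cycCocycle_pow, map_pow (unitsInc Ku N), map_pow (unitsInc L N), div_pow,
        div_mul_cancel]
    rw [h4] at h3
    have h5 := isMulCoboundary₂_of_inflCochain K Ku N h3
    rw [hA4b (Ku ≃ₐ[K] Ku) Kuˣ φ hφ _ (hφx _)] at h5
    obtain ⟨y, hy⟩ := h5
    rw [prod_smul_eq_unitsIncl_norm K Ku y] at hy
    have hy' : normUnits Ku K y = (ϖK ^ t) ^ k := unitsIncl_injective hy
    have h6 : (1 : Kˣ) * ϖK ^ (((t * k : ℕ)) : ℤ) ∈ (normUnits Ku K).range :=
      ⟨y, by rw [hy', one_mul, ← pow_mul, zpow_natCast]⟩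
    rw [hT2 A F K Ku ϖK hKu hϖK 1 _ (one_mem _)] at h6
    have h7 : Module.finrank K Ku ∣ t * k := Int.natCast_dvd_natCast.1 h6
    rw [ht, mul_comm (Module.finrank K L) t] at h7
    exact (Nat.mul_dvd_mul_iff_left htpos).1 h7
  exact card_eq_and_isAddCyclic_of_order hnpos (hT4 A F K L) (classOf hc') hord

end Core

end Fermat.Agent.S55.Local.H64
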